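import Mathlib
import Fermat.Prelude.Thm_ModularForm_sturm_bound_of_isArithmetic
import Fermat.Agent.H20.DS.Interfaces2

/-!
# P-DS / B1-INTERP' (row 531, helper33): `S_k(Γ₁(N))` is finite-dimensional

Proof: the prelude Sturm bound `ModularForm.sturm_bound_of_isArithmetic` for `Γ₁(N)`
(`1 ∈ strictPeriods` because `T ∈ Γ₁(N)`): the truncated `q`-expansion map is injective.
Also the same for `M_k(Γ₁(N))`.
-/

set_option autoImplicit false

noncomputable section

open UpperHalfPlane ModularForm CongruenceSubgroup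
open scoped MatrixGroups ModularForm Manifold

namespace Fermat.Agent.H33.DS

theorem one_mem_strictPeriods_Gamma1 (N : ℕ) :
    (1 : ℝ) ∈ (Subgroup.map (Matrix.SpecialLinearGroup.mapGL ℝ) (Gamma1 N)).strictPeriods := by
  have hT : ModularGroup.T ∈ Gamma1 N := by
    rw [Gamma1_mem]
    simp [ModularGroup.T]
  have h := Subgroup.strictPeriods_eq_zmultiples_one_of_T_mem hT
  rw [h]
  exact AddSubgroup.mem_zmultiples (1 : ℝ)

/-- the Sturm bound for `Γ₁(N)` in coefficient form -/
theorem sturm_bound_Gamma1 (N : ℕ) [NeZero N] {k : ℤ} (f : ModularForm (Gamma1 N) k)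
    (h : ∀ n : ℕ, n ≤ (k * (Subgroup.map (Matrix.SpecialLinearGroup.mapGL ℝ)
      (Gamma1 N)).relIndex 𝒮ℒ).toNat / 12 → (qExpansion 1 f).coeff n = 0) : f = 0 := by
  refine ModularForm.sturm_bound_of_isArithmetic (one_mem_strictPeriods_Gamma1 N) ?_
  set B := (k * (Subgroup.map (Matrix.SpecialLinearGroup.mapGL ℝ)
      (Gamma1 N)).relIndex 𝒮ℒ).toNat / 12 with hB
  have h1 : ((B + 1 : ℕ) : ℕ∞) ≤ (qExpansion 1 f).order := by
    refine PowerSeries.nat_le_order _ _ fun i hi => h i (by omega)
  refine lt_of_lt_of_le ?_ h1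
  exact_mod_cast Nat.lt_succ_self B

/-- `M_k(Γ₁(N))` is finite-dimensional. -/
theorem finiteDimensional_modularForm_Gamma1 (N : ℕ) [NeZero N] (k : ℤ) :
    FiniteDimensional ℂ (ModularForm (Gamma1 N) k) := by
  classical
  set B : ℕ := (k * (Subgroup.map (Matrix.SpecialLinearGroup.mapGL ℝ)
      (Gamma1 N)).relIndex 𝒮ℒ).toNat / 12
  have h1 := one_mem_strictPeriods_Gamma1 N
  let T : ModularForm (Gamma1 N) k →ₗ[ℂ] (Fin (B + 1) → ℂ) :=
    { toFun := fun f i => PowerSeries.coeff (i : ℕ) (qExpansion 1 f)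
      map_add' := fun f g => by
        funext i
        show PowerSeries.coeff (i : ℕ) (qExpansion 1 (⇑(f + g))) = _
        rw [show (⇑(f + g) : ℍ → ℂ) = ⇑f + ⇑g from rfl,
          ModularForm.qExpansion_add one_pos h1 f g]
        simp
      map_smul' := fun c f => by
        funext i
        show PowerSeries.coeff (i : ℕ) (qExpansion 1 (⇑(c • f))) = _
        rw [show (⇑(c • f) : ℍ → ℂ) = c • ⇑f from rfl,
          ModularForm.qExpansion_smul one_pos h1 c f]
        simp }
  refine FiniteDimensional.of_injective T ?_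
  rw [injective_iff_map_eq_zero]
  intro f hf
  refine sturm_bound_Gamma1 N f fun n hn => ?_
  have := congrFun hf ⟨n, Nat.lt_succ_of_le hn⟩
  simpa [T] using this

/-- `S_k(Γ₁(N))` is finite-dimensional. -/
theorem finiteDimensional_cuspForm_Gamma1 (N : ℕ) [NeZero N] (k : ℤ) :
    FiniteDimensional ℂ (CuspForm (Gamma1 N) k) := by
  classical
  have := finiteDimensional_modularForm_Gamma1 N k
  let T : CuspForm (Gamma1 N) k →ₗ[ℂ] ModularForm (Gamma1 N) k :=
    { toFun := fun f => ModularFormClass.modularForm f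
      map_add' := fun f g => by ext z; rfl
      map_smul' := fun c f => by ext z; rfl }
  refine FiniteDimensional.of_injective T ?_
  intro f g hfg
  have : (⇑(T f) : ℍ → ℂ) = ⇑(T g) := by rw [hfg]
  exact DFunLike.coe_injective this

/-- **B1-INTERP'** -/
theorem finDimGamma1 : Fermat.Agent.H20.DS.FinDimGamma1Statement :=
  fun N _ k => finiteDimensional_cuspForm_Gamma1 N k

end Fermat.Agent.H33.DS
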