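import Mathlib
import Fermat.Agent.H75.Interpolation
import Fermat.Agent.H20.DS.Interfaces2

/-!
# P-DS / B1-INTERP (row 531, helper33): relative Lagrange interpolation `Γ₁(N) ⊆ Γ₀(N)`

Port of `Fermat.Agent.H75.Interpolation` with `(SL(2, ℤ), Γ₀(N))` replaced by `(Γ₀(N), Γ₁(N))`
and the weight `4` of `t` replaced by `w`.  All coefficients (and `D`) are multiplied by the
discriminant `Δ`, so that the coefficients are cusp forms on `Γ₀(N)`.

Main result: `relInterp : Fermat.Agent.H20.DS.RelInterpStatement`.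
-/

set_option autoImplicit false

open UpperHalfPlane ModularForm CongruenceSubgroup SlashInvariantForm
open scoped MatrixGroups ModularForm Manifold

namespace Fermat.Agent.H33.DS

section generalIC

open Finset

variable {ι : Type} [Fintype ι] [DecidableEq ι]

/-- the interpolation coefficient attached to two families of functions -/
noncomputable def icFun (F G : ι → ℍ → ℂ) (n : ℕ) : ℍ → ℂ := fun z =>
  ∑ q : ι, F q z * ∑ S ∈ powersetCard n (univ.erase q), ∏ l ∈ S, (-(G l z))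

theorem icFun_eq_pi (F G : ι → ℍ → ℂ) (n : ℕ) :
    icFun F G n = ∑ q : ι, F q *
      ∑ S ∈ powersetCard n (univ.erase q), ∏ l ∈ S, (-(G l)) := by
  funext z
  simp only [icFun, Finset.sum_apply, Pi.mul_apply, Finset.prod_apply, Pi.neg_apply]

/-- slash of the interpolation coefficient by an element of `SL(2, ℤ)` -/
theorem icFun_slash (F G : ι → ℍ → ℂ) (n : ℕ) (k w : ℤ) (γ : SL(2, ℤ)) :
    (icFun F G n) ∣[k + w * (n : ℤ)] γ =
      icFun (fun q => F q ∣[k] γ) (fun l => G l ∣[w] γ) n := by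
  funext z
  rw [SL_slash_apply]
  have hd : denom γ z ≠ 0 := denom_ne_zero γ z
  have hF : ∀ q, F q (γ • z) = (F q ∣[k] γ) z * denom γ z ^ k := by
    intro q
    rw [SL_slash_apply, mul_assoc, ← zpow_add₀ hd]
    simp
  have hG : ∀ l, G l (γ • z) = denom γ z ^ w * (G l ∣[w] γ) z := by
    intro l
    rw [SL_slash_apply, mul_comm, mul_assoc, ← zpow_add₀ hd]
    simp
  unfold icFun
  have key : ∀ q : ι, F q (γ • z) *
      ∑ S ∈ powersetCard n (univ.erase q), ∏ l ∈ S, (-(G l (γ • z)))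
      = denom γ z ^ k * (denom γ z ^ w) ^ n * ((F q ∣[k] γ) z *
        ∑ S ∈ powersetCard n (univ.erase q), ∏ l ∈ S, (-((G l ∣[w] γ) z))) := by
    intro q
    rw [hF q]
    have : ∀ S ∈ powersetCard n (univ.erase q), ∏ l ∈ S, (-(G l (γ • z)))
        = ∏ l ∈ S, (-(denom γ z ^ w * (fun l => (G l ∣[w] γ) z) ((Equiv.refl ι) l))) := by
      intro S _
      refine prod_congr rfl fun l _ => ?_
      rw [hG l]
      rfl
    rw [sum_congr rfl this,
      Fermat.Agent.H75.esum_perm (Equiv.refl ι) (fun l => (G l ∣[w] γ) z) (denom γ z ^ w) q n]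
    simp only [Equiv.refl_apply]
    ring
  rw [Finset.sum_congr rfl (fun q _ => key q), ← Finset.mul_sum]
  have h1 : denom γ z ^ k * (denom γ z ^ w) ^ n * denom γ z ^ (-(k + w * (n : ℤ))) = 1 := by
    rw [← zpow_natCast (denom γ z ^ w) n, ← zpow_mul, ← zpow_add₀ hd, ← zpow_add₀ hd]
    have : k + w * (n : ℤ) + -(k + w * (n : ℤ)) = 0 := by ring
    rw [this, zpow_zero]
  set T0 := ∑ q : ι, (F q ∣[k] γ) z *
    ∑ S ∈ powersetCard n (univ.erase q), ∏ l ∈ S, (-((G l ∣[w] γ) z)) with hT0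
  calc denom γ z ^ k * (denom γ z ^ w) ^ n * T0 * denom γ z ^ (-(k + w * (n : ℤ)))
      = (denom γ z ^ k * (denom γ z ^ w) ^ n * denom γ z ^ (-(k + w * (n : ℤ)))) * T0 := by ring
    _ = T0 := by rw [h1, one_mul]

/-- invariance of the interpolation coefficient under a permutation of the index set -/
theorem icFun_perm (F G : ι → ℍ → ℂ) (n : ℕ) (π : Equiv.Perm ι) :
    icFun (fun q => F (π q)) (fun l => G (π l)) n = icFun F G n := by
  funext z
  unfold icFun
  have key : ∀ q : ι, F (π q) z *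
      ∑ S ∈ powersetCard n (univ.erase q), ∏ l ∈ S, (-(G (π l) z))
      = F (π q) z *
        ∑ S ∈ powersetCard n (univ.erase (π q)), ∏ l ∈ S, (-(G l z)) := by
    intro q
    have : ∀ S ∈ powersetCard n (univ.erase q), ∏ l ∈ S, (-(G (π l) z))
        = ∏ l ∈ S, (-((1 : ℂ) * (fun l => G l z) (π l))) := by
      intro S _
      refine prod_congr rfl fun l _ => ?_
      rw [one_mul]
    rw [sum_congr rfl this, Fermat.Agent.H75.esum_perm π (fun l => G l z) 1 q n]
    simp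
  rw [Finset.sum_congr rfl (fun q _ => key q)]
  exact Equiv.sum_comp π (fun q => F q z *
    ∑ S ∈ powersetCard n (univ.erase q), ∏ l ∈ S, (-(G l z)))

theorem mdiff_icFun (F G : ι → ℍ → ℂ) (n : ℕ) (hF : ∀ q, MDiff (F q)) (hG : ∀ l, MDiff (G l)) :
    MDiff (icFun F G n) := by
  rw [icFun_eq_pi]
  refine MDifferentiable.sum fun q _ => ?_
  refine MDifferentiable.mul (hF q) ?_
  refine MDifferentiable.sum fun S _ => ?_
  refine MDifferentiable.prod fun l _ => ?_
  exact (hG l).neg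

theorem isBoundedAtImInfty_icFun (F G : ι → ℍ → ℂ) (n : ℕ)
    (hF : ∀ q, IsBoundedAtImInfty (F q)) (hG : ∀ l, IsBoundedAtImInfty (G l)) :
    IsBoundedAtImInfty (icFun F G n) := by
  rw [icFun_eq_pi]
  have hmem : ∀ {φ : ℍ → ℂ}, IsBoundedAtImInfty φ ↔
      φ ∈ Filter.boundedFilterSubalgebra ℂ atImInfty := Iff.rfl
  rw [hmem]
  refine Subalgebra.sum_mem _ fun q _ => ?_
  refine Subalgebra.mul_mem _ (hmem.1 (hF q)) ?_
  refine Subalgebra.sum_mem _ fun S _ => ?_
  refine Subalgebra.prod_mem _ fun l _ => ?_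
  exact Subalgebra.neg_mem _ (hmem.1 (hG l))

/-- The interpolation identity, pointwise, for abstract families with a base point `q₀`. -/
theorem icFun_identity (F G : ι → ℍ → ℂ) (q₀ : ι) (z : ℍ) :
    F q₀ z * ∏ l ∈ univ.erase q₀, (G q₀ z - G l z) =
      ∑ m ∈ range (Fintype.card ι), icFun F G (Fintype.card ι - 1 - m) z * G q₀ z ^ m := by
  have hcard : ∀ q : ι, (univ.erase q).card = Fintype.card ι - 1 := fun q => by
    rw [card_erase_of_mem (mem_univ q), card_univ]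
  have hpos : 0 < Fintype.card ι := Fintype.card_pos_iff.mpr ⟨q₀⟩
  have hexp : ∀ q : ι, ∏ l ∈ univ.erase q, (G q₀ z - G l z) =
      ∑ m ∈ range (Fintype.card ι), (∑ S ∈ powersetCard (Fintype.card ι - 1 - m) (univ.erase q),
        ∏ l ∈ S, (-(G l z))) * G q₀ z ^ m := by
    intro q
    rw [Fermat.Agent.H75.prod_sub_expand (univ.erase q) (fun l => G l z) (G q₀ z), hcard q,
      Nat.sub_add_cancel hpos]
  have hsum : ∑ m ∈ range (Fintype.card ι), icFun F G (Fintype.card ι - 1 - m) z * G q₀ z ^ m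
      = ∑ q : ι, F q z * ∏ l ∈ univ.erase q, (G q₀ z - G l z) := by
    simp only [icFun, hexp, Finset.sum_mul, Finset.mul_sum]
    rw [Finset.sum_comm]
    refine sum_congr rfl fun q _ => sum_congr rfl fun m _ => ?_
    refine sum_congr rfl fun S _ => ?_
    ring
  rw [hsum]
  rw [Finset.sum_eq_single q₀]
  · intro q _ hq
    have hmem : q₀ ∈ univ.erase q := mem_erase.mpr ⟨fun h => hq h.symm, mem_univ _⟩
    rw [Finset.prod_eq_zero hmem, mul_zero]
    rw [sub_self]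
  · intro h
    exact absurd (mem_univ _) h

end generalIC

/-- the coset space `Γ₀(N) / Γ₁(N)` (inside `GL(2, ℝ)`) -/
abbrev RelQ (N : ℕ) : Type :=
  ((Gamma0 N : Subgroup SL(2, ℤ)) : Subgroup (GL (Fin 2) ℝ)) ⧸
    (Subgroup.subgroupOf ((Gamma1 N : Subgroup SL(2, ℤ)) : Subgroup (GL (Fin 2) ℝ))
      ((Gamma0 N : Subgroup SL(2, ℤ)) : Subgroup (GL (Fin 2) ℝ)))

section conj

variable {N : ℕ} {k w : ℤ}

/-- The element of `Γ₀(N) ⊆ GL(2, ℝ)` attached to `γ ∈ Γ₀(N)`. -/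
noncomputable def g0Elt (γ : SL(2, ℤ)) (hγ : γ ∈ Gamma0 N) :
    ((Gamma0 N : Subgroup SL(2, ℤ)) : Subgroup (GL (Fin 2) ℝ)) :=
  ⟨Matrix.SpecialLinearGroup.mapGL ℝ γ, γ, hγ, rfl⟩

local notation "𝒬" =>
  ((Gamma0 N : Subgroup SL(2, ℤ)) : Subgroup (GL (Fin 2) ℝ)) ⧸
    (Subgroup.subgroupOf ((Gamma1 N : Subgroup SL(2, ℤ)) : Subgroup (GL (Fin 2) ℝ))
      ((Gamma0 N : Subgroup SL(2, ℤ)) : Subgroup (GL (Fin 2) ℝ)))

theorem finite_relQuot (N : ℕ) [NeZero N] : Finite (((Gamma0 N : Subgroup SL(2, ℤ)) :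
    Subgroup (GL (Fin 2) ℝ)) ⧸
    (Subgroup.subgroupOf ((Gamma1 N : Subgroup SL(2, ℤ)) : Subgroup (GL (Fin 2) ℝ))
      ((Gamma0 N : Subgroup SL(2, ℤ)) : Subgroup (GL (Fin 2) ℝ)))) := by
  have hle : ((Gamma0 N : Subgroup SL(2, ℤ)) : Subgroup (GL (Fin 2) ℝ)) ≤ 𝒮ℒ := by
    rintro _ ⟨γ, -, rfl⟩
    exact ⟨γ, rfl⟩
  have : (((Gamma1 N : Subgroup SL(2, ℤ)) : Subgroup (GL (Fin 2) ℝ))).IsFiniteRelIndex
      ((Gamma0 N : Subgroup SL(2, ℤ)) : Subgroup (GL (Fin 2) ℝ)) :=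
    Subgroup.isFiniteRelIndex_of_le_right _ hle
  infer_instance

theorem relQuotientFunc_slash (f : ModularForm (Gamma1 N) k) (q : 𝒬) (γ : SL(2, ℤ))
    (hγ : γ ∈ Gamma0 N) :
    quotientFunc f q ∣[k] γ = quotientFunc f ((g0Elt γ hγ)⁻¹ • q) := by
  have h := quotientFunc_smul f (g0Elt γ hγ).2 q
  exact h

theorem mdiff_relQuotientFunc (f : ModularForm (Gamma1 N) k) (q : 𝒬) :
    MDiff (quotientFunc f q) := by
  induction q using Quotient.inductionOn with
  | h r => exact (ModularForm.translate f r.1⁻¹).holo'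

theorem relQuotientFunc_mk_eq (f : ModularForm (Gamma1 N) k) (γ : SL(2, ℤ))
    (hγ : γ ∈ Gamma0 N) :
    quotientFunc f (⟦g0Elt γ hγ⟧ : 𝒬) = (⇑f) ∣[k] γ⁻¹ := by
  rw [quotientFunc_mk]
  rw [SL_slash]
  congr 1
  exact (map_inv (Matrix.SpecialLinearGroup.mapGL ℝ) γ).symm

theorem isBoundedAtImInfty_relQuotientFunc_slash [NeZero N] (f : ModularForm (Gamma1 N) k)
    (q : 𝒬) (γ : SL(2, ℤ)) :
    IsBoundedAtImInfty (quotientFunc f q ∣[k] γ) := by
  induction q using Quotient.inductionOn with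
  | h r =>
    obtain ⟨r, γ₀, hγ₀, rfl⟩ := r
    have h1 := relQuotientFunc_mk_eq f γ₀ hγ₀
    have h2 : quotientFunc f (⟦⟨Matrix.SpecialLinearGroup.mapGL ℝ γ₀, γ₀, hγ₀, rfl⟩⟧ : 𝒬)
        = (⇑f) ∣[k] γ₀⁻¹ := h1
    rw [h2, ← SlashAction.slash_mul]
    exact ModularFormClass.bdd_at_infty_slash f (γ₀⁻¹ * γ)

theorem relQuotientFunc_one (f : ModularForm (Gamma1 N) k) :
    quotientFunc f ((1 : ((Gamma0 N : Subgroup SL(2, ℤ)) : Subgroup (GL (Fin 2) ℝ))) : 𝒬)
      = ⇑f := by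
  have : ((1 : ((Gamma0 N : Subgroup SL(2, ℤ)) : Subgroup (GL (Fin 2) ℝ))) : 𝒬) = ⟦1⟧ := rfl
  rw [this, quotientFunc_mk]
  simp

/-- the relative interpolation coefficient -/
noncomputable def relCoeff [Fintype 𝒬] [DecidableEq 𝒬] (f : ModularForm (Gamma1 N) k)
    (t : ModularForm (Gamma1 N) w) (n : ℕ) : ℍ → ℂ :=
  icFun (fun q : 𝒬 => quotientFunc f q) (fun l : 𝒬 => quotientFunc t l) n

theorem relCoeff_slash_Gamma0 [Fintype 𝒬] [DecidableEq 𝒬] (f : ModularForm (Gamma1 N) k)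
    (t : ModularForm (Gamma1 N) w) (n : ℕ) (γ : SL(2, ℤ)) (hγ : γ ∈ Gamma0 N) :
    (relCoeff f t n) ∣[k + w * (n : ℤ)] γ = relCoeff f t n := by
  unfold relCoeff
  rw [icFun_slash]
  have h1 : (fun q : 𝒬 => quotientFunc f q ∣[k] γ) =
      fun q => (fun q : 𝒬 => quotientFunc f q) ((MulAction.toPerm (g0Elt γ hγ)⁻¹ : Equiv.Perm 𝒬) q) := by
    funext q
    exact relQuotientFunc_slash f q γ hγ
  have h2 : (fun q : 𝒬 => quotientFunc t q ∣[w] γ) =
      fun q => (fun q : 𝒬 => quotientFunc t q) ((MulAction.toPerm (g0Elt γ hγ)⁻¹ : Equiv.Perm 𝒬) q) := by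
    funext q
    exact relQuotientFunc_slash t q γ hγ
  rw [h1, h2]
  exact icFun_perm _ _ n _

theorem mdiff_relCoeff [Fintype 𝒬] [DecidableEq 𝒬] (f : ModularForm (Gamma1 N) k)
    (t : ModularForm (Gamma1 N) w) (n : ℕ) : MDiff (relCoeff f t n) :=
  mdiff_icFun _ _ n (mdiff_relQuotientFunc f) (mdiff_relQuotientFunc t)

theorem isBoundedAtImInfty_relCoeff_slash [NeZero N] [Fintype 𝒬] [DecidableEq 𝒬]
    (f : ModularForm (Gamma1 N) k) (t : ModularForm (Gamma1 N) w) (n : ℕ) (γ : SL(2, ℤ)) :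
    IsBoundedAtImInfty ((relCoeff f t n) ∣[k + w * (n : ℤ)] γ) := by
  unfold relCoeff
  rw [icFun_slash]
  exact isBoundedAtImInfty_icFun _ _ n
    (fun q => isBoundedAtImInfty_relQuotientFunc_slash f q γ)
    (fun l => isBoundedAtImInfty_relQuotientFunc_slash t l γ)

theorem discriminant_slash (γ : SL(2, ℤ)) :
    (ModularForm.discriminant ∣[(12 : ℤ)] γ) = ModularForm.discriminant := by
  have h := CuspForm.discriminant.slash_action_eq' (Matrix.SpecialLinearGroup.mapGL ℝ γ) ⟨γ, rfl⟩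
  exact h

/-- `Δ · relCoeff f t n` is a cusp form on `Γ₀(N)` of weight `k + 12 + w n`. -/
theorem exists_cuspForm_relCoeff [NeZero N] [Fintype 𝒬] [DecidableEq 𝒬]
    (f : ModularForm (Gamma1 N) k) (t : ModularForm (Gamma1 N) w) (n : ℕ) (W : ℤ)
    (hW : W = k + 12 + w * (n : ℤ)) :
    ∃ g : CuspForm (Gamma0 N) W, ⇑g = ModularForm.discriminant * relCoeff f t n := by
  have hW' : W = 12 + (k + w * (n : ℤ)) := by rw [hW]; ring
  have hslash : ∀ γ : SL(2, ℤ), (ModularForm.discriminant * relCoeff f t n) ∣[W] γ =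
      ModularForm.discriminant * ((relCoeff f t n) ∣[k + w * (n : ℤ)] γ) := by
    intro γ
    rw [hW', mul_slash_SL2, discriminant_slash]
  refine ⟨{ toFun := ModularForm.discriminant * relCoeff f t n
            slash_action_eq' := ?_
            holo' := ?_
            zero_at_cusps' := ?_ }, rfl⟩
  · rintro _ ⟨γ, hγ, rfl⟩
    show (ModularForm.discriminant * relCoeff f t n) ∣[W] γ = _
    rw [hslash γ, relCoeff_slash_Gamma0 f t n γ hγ]
  · exact (CuspForm.discriminant.holo').mul (mdiff_relCoeff f t n)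
  · intro c hc
    rw [Subgroup.IsArithmetic.isCusp_iff_isCusp_SL2Z] at hc
    rw [OnePoint.isZeroAt_iff_forall_SL2Z hc]
    intro γ _
    show IsZeroAtImInfty ((ModularForm.discriminant * relCoeff f t n) ∣[W] γ)
    rw [hslash γ]
    exact Filter.ZeroAtFilter.mul_boundedAtFilter ModularForm.discriminant_isZeroAtImInfty
      (isBoundedAtImInfty_relCoeff_slash f t n γ)

open Finset in
/-- The discriminant-like factor is nonzero when `t` separates the cosets of `Γ₁(N)` in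
`Γ₀(N)`. -/
theorem rel_denominator_ne_zero [Fintype 𝒬] [DecidableEq 𝒬]
    (t : ModularForm (Gamma1 N) w)
    (ht : ∀ γ : SL(2, ℤ), γ ∈ Gamma0 N → (⇑t ∣[w] γ = ⇑t) → γ ∈ Gamma1 N) :
    (fun z : ℍ => ∏ l ∈ univ.erase
      (((1 : ((Gamma0 N : Subgroup SL(2, ℤ)) : Subgroup (GL (Fin 2) ℝ))) : 𝒬)),
        (t z - quotientFunc t l z)) ≠ 0 := by
  have hpi : (fun z : ℍ => ∏ l ∈ univ.erase
      (((1 : ((Gamma0 N : Subgroup SL(2, ℤ)) : Subgroup (GL (Fin 2) ℝ))) : 𝒬)),
        (t z - quotientFunc t l z))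
      = ∏ l ∈ univ.erase
        (((1 : ((Gamma0 N : Subgroup SL(2, ℤ)) : Subgroup (GL (Fin 2) ℝ))) : 𝒬)),
          (⇑t - quotientFunc t l) := by
    funext z
    simp only [Finset.prod_apply, Pi.sub_apply]
  rw [hpi]
  intro h0
  rw [UpperHalfPlane.prod_eq_zero_iff
    (fun l _ => (ModularFormClass.holo t).sub (mdiff_relQuotientFunc t l))] at h0
  obtain ⟨l, hl, hl0⟩ := h0
  rw [mem_erase] at hl
  apply hl.1
  induction l using Quotient.inductionOn with
  | h r =>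
    obtain ⟨r, γ, hγ0, rfl⟩ := r
    have hq : quotientFunc t (⟦⟨Matrix.SpecialLinearGroup.mapGL ℝ γ, γ, hγ0, rfl⟩⟧ : 𝒬)
        = (⇑t) ∣[w] γ⁻¹ := relQuotientFunc_mk_eq t γ hγ0
    rw [hq] at hl0
    have hγ : γ⁻¹ ∈ Gamma1 N := ht γ⁻¹ (inv_mem hγ0) (sub_eq_zero.mp hl0).symm
    symm
    show ((1 : ((Gamma0 N : Subgroup SL(2, ℤ)) : Subgroup (GL (Fin 2) ℝ))) : 𝒬) =
      ((⟨Matrix.SpecialLinearGroup.mapGL ℝ γ, γ, hγ0, rfl⟩ :
        ((Gamma0 N : Subgroup SL(2, ℤ)) : Subgroup (GL (Fin 2) ℝ))) : 𝒬)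
    rw [QuotientGroup.eq]
    rw [Subgroup.mem_subgroupOf]
    simp only [inv_one, one_mul]
    exact ⟨γ, inv_mem_iff.mp hγ, rfl⟩

end conj

section main

/-- **B1-INTERP** -/
theorem relInterp : Fermat.Agent.H20.DS.RelInterpStatement := by
  intro N _ w t ht
  classical
  have hfin : Finite (RelQ N) := finite_relQuot N
  let : Fintype (RelQ N) := Fintype.ofFinite _
  set q₀ : RelQ N :=
    ((1 : ((Gamma0 N : Subgroup SL(2, ℤ)) : Subgroup (GL (Fin 2) ℝ))) : RelQ N) with hq₀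
  set μ := Fintype.card (RelQ N) with hμ
  set P : ℍ → ℂ := fun z : ℍ => ∏ l ∈ Finset.univ.erase q₀, (t z - quotientFunc t l z) with hP
  have hP0 : P ≠ 0 := rel_denominator_ne_zero t ht
  refine ⟨μ, ModularForm.discriminant * P, Fintype.card_pos_iff.mpr ⟨q₀⟩, ?_, ?_⟩
  · intro h0
    apply hP0
    funext z
    have hz := congrFun h0 z
    simp only [Pi.mul_apply, Pi.zero_apply, mul_eq_zero] at hz
    rcases hz with hz | hz
    · exact absurd hz (ModularForm.discriminant_ne_zero z)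
    · exact hz
  · intro k f
    refine ⟨fun m => ModularForm.discriminant * relCoeff f t (μ - 1 - m), ?_, ?_⟩
    · intro m hm
      refine exists_cuspForm_relCoeff f t _ _ ?_
      have : ((μ - 1 - m : ℕ) : ℤ) = (μ : ℤ) - 1 - (m : ℤ) := by omega
      rw [this]
    · funext z
      simp only [Pi.mul_apply, Finset.sum_apply, Pi.pow_apply]
      have hid := icFun_identity (fun q : RelQ N => quotientFunc f q)
        (fun l : RelQ N => quotientFunc t l) q₀ z
      simp only [hq₀, relQuotientFunc_one f, relQuotientFunc_one t] at hid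
      have h1 : f z * (ModularForm.discriminant z * P z) =
          ModularForm.discriminant z * (f z * P z) := by ring
      rw [h1]
      have h2 : f z * P z = ∑ m ∈ Finset.range μ,
          icFun (fun q : RelQ N => quotientFunc f q) (fun l : RelQ N => quotientFunc t l)
            (μ - 1 - m) z * t z ^ m := hid
      rw [h2, Finset.mul_sum]
      refine Finset.sum_congr rfl fun m _ => ?_
      unfold relCoeff
      ring

end main

end Fermat.Agent.H33.DS
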